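-- Statement S02: a counterexample to FLT with prime exponent p ≥ 5 yields a Frey package.
import Fermat.Statements.S02

set_option autoImplicit false
open FreyPackage

namespace Fermat.Agent.S02

/-- Coprime case, `b` even: adjust sign so that `a ≡ 3 mod 4`. -/
theorem of_coprime_even (a b c : ℤ) (ha : a ≠ 0) (hb : b ≠ 0) (hc : c ≠ 0) (p : ℕ)
    (pp : p.Prime) (hp5 : 5 ≤ p) (H : a ^ p + b ^ p = c ^ p) (hab : gcd a b = 1)
    (hb2 : (2 : ℤ) ∣ b) : Nonempty FreyPackage := by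
  have p_odd : Odd p := pp.odd_of_ne_two (by omega)
  have haodd : ¬ (2 : ℤ) ∣ a := by
    intro h2a
    have h : (2 : ℤ) ∣ gcd a b := dvd_gcd h2a hb2
    rw [hab] at h
    norm_num at h
  have hb2' : ((b : ℤ) : ZMod 2) = 0 := (ZMod.intCast_zmod_eq_zero_iff_dvd b 2).2 hb2
  have h4 : a % 4 = 1 ∨ a % 4 = 3 := by omega
  rcases h4 with h1 | h3
  · refine ⟨{ a := -a, b := -b, c := -c, ha0 := neg_ne_zero.2 ha, hb0 := neg_ne_zero.2 hb,
              hc0 := neg_ne_zero.2 hc, p := p, pp := pp, hp5 := hp5, hFLT := ?_, hgcdab := ?_,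
              ha4 := ?_, hb2 := ?_ }⟩
    · rw [p_odd.neg_pow, p_odd.neg_pow, p_odd.neg_pow, ← H]; ring
    · rw [gcd_neg, neg_gcd]; exact hab
    · have : ((-a : ℤ) : ZMod 4) = ((3 : ℤ) : ZMod 4) := by
        rw [ZMod.intCast_eq_intCast_iff]
        unfold Int.ModEq
        push_cast
        omega
      simpa using this
    · push_cast
      rw [hb2']
      simp
  · refine ⟨{ a := a, b := b, c := c, ha0 := ha, hb0 := hb, hc0 := hc, p := p, pp := pp,
              hp5 := hp5, hFLT := H, hgcdab := hab, ha4 := ?_, hb2 := hb2' }⟩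
    have : ((a : ℤ) : ZMod 4) = ((3 : ℤ) : ZMod 4) := by
      rw [ZMod.intCast_eq_intCast_iff]
      unfold Int.ModEq
      push_cast
      omega
    simpa using this

/-- Coprime case: permute so that `b` is even. -/
theorem of_coprime (a b c : ℤ) (ha : a ≠ 0) (hb : b ≠ 0) (hc : c ≠ 0) (p : ℕ)
    (pp : p.Prime) (hp5 : 5 ≤ p) (H : a ^ p + b ^ p = c ^ p) (hab : gcd a b = 1) :
    Nonempty FreyPackage := by
  have p_odd : Odd p := pp.odd_of_ne_two (by omega)
  have hp0 : p ≠ 0 := pp.ne_zero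
  by_cases hb2 : (2 : ℤ) ∣ b
  · exact of_coprime_even a b c ha hb hc p pp hp5 H hab hb2
  by_cases ha2 : (2 : ℤ) ∣ a
  · refine of_coprime_even b a c hb ha hc p pp hp5 ?_ ?_ ha2
    · rw [add_comm]; exact H
    · rw [gcd_comm]; exact hab
  -- both odd, hence `c` is even
  have hc2 : (2 : ℤ) ∣ c := by
    have hao : Odd a := by rwa [← Int.not_even_iff_odd, even_iff_two_dvd]
    have hbo : Odd b := by rwa [← Int.not_even_iff_odd, even_iff_two_dvd]
    have hcp : Even (c ^ p) := by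
      rw [← H]
      exact (hao.pow).add_odd (hbo.pow)
    rw [← even_iff_two_dvd]
    exact (Int.even_pow.1 hcp).1
  refine of_coprime_even a (-c) (-b) ha (neg_ne_zero.2 hc) (neg_ne_zero.2 hb) p pp hp5 ?_ ?_
    (by rwa [dvd_neg])
  · rw [p_odd.neg_pow, p_odd.neg_pow, ← H]; ring
  · rw [gcd_neg, ← gcdab_eq_gcdac (Nat.pos_of_ne_zero hp0) H]; exact hab

theorem result (a b c : ℤ) (ha : a ≠ 0) (hb : b ≠ 0) (hc : c ≠ 0) (p : ℕ) (pp : p.Prime) (hp5 : 5 ≤ p) (H : a ^ p + b ^ p = c ^ p) : Nonempty FreyPackage := by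
  have hp0 : p ≠ 0 := pp.ne_zero
  -- divide out by `d = gcd a b`
  obtain ⟨a', b', hcop, ha', hb'⟩ : ∃ a' b' : ℤ, Int.gcd a' b' = 1 ∧
      a = a' * (Int.gcd a b : ℤ) ∧ b = b' * (Int.gcd a b : ℤ) := by
    have hpos : 0 < Int.gcd a b := Int.gcd_pos_of_ne_zero_left b ha
    obtain ⟨a', b', h1, h2, h3⟩ := Int.exists_gcd_one hpos
    exact ⟨a', b', h1, h2, h3⟩
  set d : ℤ := (Int.gcd a b : ℤ) with hd
  have hd0 : d ≠ 0 := by
    have hpos : 0 < Int.gcd a b := Int.gcd_pos_of_ne_zero_left b ha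
    rw [hd]; exact_mod_cast hpos.ne'
  have hdc : d ∣ c := by
    rw [← Int.pow_dvd_pow_iff hp0, ← H, ha', hb', mul_pow, mul_pow]
    exact dvd_add (dvd_mul_left _ _) (dvd_mul_left _ _)
  obtain ⟨c', hc'⟩ := hdc
  have ha0' : a' ≠ 0 := by
    rintro rfl; apply ha; rw [ha']; simp
  have hb0' : b' ≠ 0 := by
    rintro rfl; apply hb; rw [hb']; simp
  have hc0' : c' ≠ 0 := by
    rintro rfl; apply hc; rw [hc']; simp
  have H' : a' ^ p + b' ^ p = c' ^ p := by
    have hdp : d ^ p ≠ 0 := pow_ne_zero _ hd0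
    apply mul_left_cancel₀ hdp
    have := H
    rw [ha', hb', hc'] at this
    rw [mul_pow, mul_pow, mul_pow] at this
    linear_combination this
  refine of_coprime a' b' c' ha0' hb0' hc0' p pp hp5 H' ?_
  rw [← Int.coe_gcd, hcop]; rfl

end Fermat.Agent.S02
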