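import Fermat.Statements.S05
import Fermat.Agent.S05x.Frey
import Fermat.Agent.S05x.Wire

set_option autoImplicit false
open WeierstrassCurve WeierstrassCurve.Affine WeierstrassCurve.Affine.Point
open CuspForm ModularFormClass UpperHalfPlane
open FreyPackage

namespace Fermat.Agent.S05

theorem result (P : FreyPackage) {q : ℕ} (hq : q.Prime) (hq2 : q ≠ 2) (hqp : q ≠ P.p) : P.GaloisRepUnramifiedAt q :=
  Fermat.Agent.S05x.frey_unramified_of
    (fun A _ H τ hτ _ hn hn2 hnv hred _ _ h h' hP hQ =>
      Fermat.Agent.S05x.fin_local_main A H τ hτ hn hn2 hnv hred h h' hP hQ) P hq hq2 hqp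

end Fermat.Agent.S05
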