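-- Statement S07: every weight-2 cusp form of level Gamma0(2) is zero.
-- Proof: Sturm bound for Gamma0(N) (Prelude) with index(Gamma0(2)) <= 4, so that only the constant
-- q-coefficient has to vanish, which holds for a cusp form.
import Fermat.Statements.S07
import Fermat.Prelude.Thm_ModularForm_sturm_bound_Gamma0
import Fermat.Prelude.Thm_CongruenceSubgroup_one_mem_strictPeriods_Gamma0

set_option autoImplicit false
open WeierstrassCurve WeierstrassCurve.Affine WeierstrassCurve.Affine.Point
open CuspForm ModularFormClass UpperHalfPlane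
open ModularForm

namespace Fermat.Agent.S07

/-- The first column of an element of `SL(2, ℤ)`, reduced mod 2. -/
def colMod2 (g : Matrix.SpecialLinearGroup (Fin 2) ℤ) : ZMod 2 × ZMod 2 :=
  ((g.1 0 0 : ZMod 2), (g.1 1 0 : ZMod 2))

/-- Two elements of `SL(2, ℤ)` are in the same left coset of `Gamma0 2` iff their first columns
agree mod 2. -/
theorem leftRel_iff_colMod2 (g g' : Matrix.SpecialLinearGroup (Fin 2) ℤ) :
    g⁻¹ * g' ∈ CongruenceSubgroup.Gamma0 2 ↔ colMod2 g = colMod2 g' := by
  rw [CongruenceSubgroup.Gamma0_mem]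
  have hg := g.det_coe
  have hg' := g'.det_coe
  rw [Matrix.det_fin_two] at hg hg'
  have e : ((g⁻¹ * g').1 1 0 : ℤ) = g.1 0 0 * g'.1 1 0 - g.1 1 0 * g'.1 0 0 := by
    rw [Matrix.SpecialLinearGroup.coe_mul, Matrix.SpecialLinearGroup.coe_inv,
      Matrix.adjugate_fin_two, Matrix.mul_apply, Fin.sum_univ_two]
    simp
    ring
  rw [e]
  have h1 := congrArg (Int.cast : ℤ → ZMod 2) hg
  have h2 := congrArg (Int.cast : ℤ → ZMod 2) hg'
  push_cast at h1 h2 ⊢
  unfold colMod2
  rw [Prod.mk.injEq]
  generalize ((g.1 0 0 : ℤ) : ZMod 2) = a at *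
  generalize ((g.1 0 1 : ℤ) : ZMod 2) = b at *
  generalize ((g.1 1 0 : ℤ) : ZMod 2) = c at *
  generalize ((g.1 1 1 : ℤ) : ZMod 2) = d at *
  generalize ((g'.1 0 0 : ℤ) : ZMod 2) = a' at *
  generalize ((g'.1 0 1 : ℤ) : ZMod 2) = b' at *
  generalize ((g'.1 1 0 : ℤ) : ZMod 2) = c' at *
  generalize ((g'.1 1 1 : ℤ) : ZMod 2) = d' at *
  revert a b c d a' b' c' d'
  decide

/-- The index of `Gamma0 2` in `SL(2, ℤ)` is at most 4 (it is in fact 3). -/
theorem Gamma0_two_index_le : (CongruenceSubgroup.Gamma0 2).index ≤ 4 := by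
  classical
  let φ : Matrix.SpecialLinearGroup (Fin 2) ℤ ⧸ CongruenceSubgroup.Gamma0 2 → ZMod 2 × ZMod 2 :=
    Quotient.lift colMod2
      (fun g g' h => (leftRel_iff_colMod2 g g').1 (QuotientGroup.leftRel_apply.1 h))
  have hφ : Function.Injective φ := by
    intro x y
    induction x using QuotientGroup.induction_on
    induction y using QuotientGroup.induction_on
    intro h
    exact QuotientGroup.eq.2 ((leftRel_iff_colMod2 _ _).2 h)
  have := Nat.card_le_card_of_injective φ hφ
  simpa [Subgroup.index, Nat.card_prod] using this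

theorem result (f : CuspForm (CongruenceSubgroup.Gamma0 2) 2) : f = 0 := by
  have hidx : ((2 : ℤ) * ((CongruenceSubgroup.Gamma0 2).index : ℤ)).toNat / 12 = 0 := by
    have := Gamma0_two_index_le
    omega
  have h := ModularForm.sturm_bound_Gamma0 2 (ModularFormClass.modularForm f) (by
    intro n hn
    rw [hidx] at hn
    obtain rfl : n = 0 := by omega
    exact CuspFormClass.qExpansion_coeff_zero f one_pos
      (CongruenceSubgroup.one_mem_strictPeriods_Gamma0 2))
  ext z
  have := DFunLike.congr_fun h z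
  simpa using this

end Fermat.Agent.S07
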