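import Fermat.Statements.S08
-- import your own Fermat.Agent.* helpers here

set_option autoImplicit false
open WeierstrassCurve WeierstrassCurve.Affine WeierstrassCurve.Affine.Point
open CuspForm ModularFormClass UpperHalfPlane
open ModularForm

namespace Fermat.Agent.S08

/-- `Γ₀(1)` is all of `SL(2, ℤ)`. -/
theorem Gamma0_one_eq_top : CongruenceSubgroup.Gamma0 1 = ⊤ := by
  ext A
  simp only [CongruenceSubgroup.Gamma0_mem, Subgroup.mem_top, iff_true]
  exact Subsingleton.elim _ _

/-- The image of `Γ₀(1)` in `GL(2, ℝ)` is the image of `SL(2, ℤ)`. -/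
theorem map_Gamma0_one_eq_range :
    Subgroup.map (Matrix.SpecialLinearGroup.mapGL ℝ) (CongruenceSubgroup.Gamma0 1) =
      (Matrix.SpecialLinearGroup.mapGL ℝ : Matrix.SpecialLinearGroup (Fin 2) ℤ →* _).range := by
  rw [Gamma0_one_eq_top, MonoidHom.range_eq_map]

/-- Cusp forms of weight `2` on the image of `SL(2, ℤ)` vanish. -/
theorem cuspForm_levelOne_weight_two_eq_zero
    (f : CuspForm (Matrix.SpecialLinearGroup.mapGL ℝ :
      Matrix.SpecialLinearGroup (Fin 2) ℤ →* _).range 2) : f = 0 :=
  rank_zero_iff_forall_zero.mp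
    (CuspForm.rank_eq_zero_of_weight_lt_twelve (k := 2) (by norm_num)) f

/-- Generalisation over the subgroup so that we can rewrite along the equality of subgroups. -/
theorem cuspForm_eq_zero_of_eq_range (Γ : Subgroup (GL (Fin 2) ℝ))
    (hΓ : Γ = (Matrix.SpecialLinearGroup.mapGL ℝ :
      Matrix.SpecialLinearGroup (Fin 2) ℤ →* _).range) (f : CuspForm Γ 2) : f = 0 := by
  subst hΓ
  exact cuspForm_levelOne_weight_two_eq_zero f

theorem result (f : CuspForm (CongruenceSubgroup.Gamma0 1) 2) : f = 0 :=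
  cuspForm_eq_zero_of_eq_range _ map_Gamma0_one_eq_range f

end Fermat.Agent.S08
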