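-- Statement S10: vacuous via Fermat's Last Theorem for exponents 5, 7, 13 (Kummer, class number one).
import Fermat.Statements.S10
import Fermat.Agent.FLTReg.CaseI
import Fermat.Agent.FLTReg.CaseII
import Fermat.Agent.FLTReg.PID7
import Fermat.Agent.FLTReg.PID13
import Fermat.Agent.FLTReg.FreyWiring
import Fermat.Agent.FLTReg.KummerDlog5
import Fermat.Agent.FLTReg.KummerDlog7
import Fermat.Agent.FLTReg.KummerDlog13

set_option autoImplicit false
open WeierstrassCurve WeierstrassCurve.Affine WeierstrassCurve.Affine.Point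
open CuspForm ModularFormClass UpperHalfPlane
open FreyPackage

namespace Fermat.Agent.S10

/-- No Frey package has exponent `5` (Fermat's Last Theorem for exponent `5`). -/
theorem no_freyPackage_five (P : FreyPackage) (hp : P.p = 5) : False := by
  haveI : Fact (Nat.Prime 5) := ⟨by norm_num⟩
  haveI : IsCyclotomicExtension {5} ℚ (CyclotomicField 5 ℚ) :=
    CyclotomicField.isCyclotomicExtension 5 ℚ
  haveI : IsPrincipalIdealRing (NumberField.RingOfIntegers (CyclotomicField 5 ℚ)) :=
    IsCyclotomicExtension.Rat.five_pid (CyclotomicField 5 ℚ)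
  refine Fermat.Agent.FLTReg.fw_no_freyPackage (p := 5) (by norm_num) (by norm_num)
    (fun a b c hab h => Fermat.Agent.FLTReg.caseI_five hab h)
    (fun a b c hab hc hpc => ?_) P hp
  exact Fermat.Agent.FLTReg.caseII (p := 5) (K := CyclotomicField 5 ℚ) (by norm_num)
    (fun u hu => Fermat.Agent.FLTReg.KD_kummer_five (CyclotomicField 5 ℚ) u hu) hab hc hpc

/-- No Frey package has exponent `7` (Fermat's Last Theorem for exponent `7`). -/
theorem no_freyPackage_seven (P : FreyPackage) (hp : P.p = 7) : False := by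
  haveI : Fact (Nat.Prime 7) := ⟨by norm_num⟩
  haveI : IsCyclotomicExtension {7} ℚ (CyclotomicField 7 ℚ) :=
    CyclotomicField.isCyclotomicExtension 7 ℚ
  haveI : IsPrincipalIdealRing (NumberField.RingOfIntegers (CyclotomicField 7 ℚ)) :=
    Fermat.Agent.FLTReg.pid_seven (CyclotomicField 7 ℚ)
  refine Fermat.Agent.FLTReg.fw_no_freyPackage (p := 7) (by norm_num) (by norm_num)
    (fun a b c hab h => Fermat.Agent.FLTReg.caseI_seven hab h)
    (fun a b c hab hc hpc => ?_) P hp
  exact Fermat.Agent.FLTReg.caseII (p := 7) (K := CyclotomicField 7 ℚ) (by norm_num)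
    (fun u hu => Fermat.Agent.FLTReg.KD_kummer_seven (CyclotomicField 7 ℚ) u hu) hab hc hpc

/-- No Frey package has exponent `13` (Fermat's Last Theorem for exponent `13`). -/
theorem no_freyPackage_thirteen (P : FreyPackage) (hp : P.p = 13) : False := by
  haveI : Fact (Nat.Prime 13) := ⟨by norm_num⟩
  haveI : IsCyclotomicExtension {13} ℚ (CyclotomicField 13 ℚ) :=
    CyclotomicField.isCyclotomicExtension 13 ℚ
  haveI : IsPrincipalIdealRing (NumberField.RingOfIntegers (CyclotomicField 13 ℚ)) :=
    Fermat.Agent.FLTReg.pid_thirteen (CyclotomicField 13 ℚ)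
  refine Fermat.Agent.FLTReg.fw_no_freyPackage (p := 13) (by norm_num) (by norm_num)
    (fun a b c hab h => Fermat.Agent.FLTReg.caseI_thirteen hab h)
    (fun a b c hab hc hpc => ?_) P hp
  exact Fermat.Agent.FLTReg.caseII (p := 13) (K := CyclotomicField 13 ℚ) (by norm_num)
    (fun u hu => Fermat.Agent.FLTReg.KD_kummer_thirteen (CyclotomicField 13 ℚ) u hu) hab hc hpc

theorem result (P : FreyPackage) (hp : P.p = 5 ∨ P.p = 7 ∨ P.p = 13) : ¬ HasGaloisStableCofixedLine (K := AlgebraicClosure ℚ) ℚ P.freyCurve P.p := by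
  rcases hp with h | h | h
  · exact (no_freyPackage_five P h).elim
  · exact (no_freyPackage_seven P h).elim
  · exact (no_freyPackage_thirteen P h).elim

end Fermat.Agent.S10
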