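-- Statement S11: vacuous via Fermat's Last Theorem for exponent 11 (Kummer, class number one).
import Fermat.Statements.S11
import Fermat.Agent.FLTReg.CaseI
import Fermat.Agent.FLTReg.CaseII
import Fermat.Agent.FLTReg.PID
import Fermat.Agent.FLTReg.FreyWiring
import Fermat.Agent.FLTReg.KummerDlog11

set_option autoImplicit false
open WeierstrassCurve WeierstrassCurve.Affine WeierstrassCurve.Affine.Point
open CuspForm ModularFormClass UpperHalfPlane
open FreyPackage

namespace Fermat.Agent.S11

/-- No Frey package has exponent `11` (Fermat's Last Theorem for exponent `11`). -/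
theorem no_freyPackage_eleven (P : FreyPackage) (hp : P.p = 11) : False := by
  haveI : Fact (Nat.Prime 11) := ⟨by norm_num⟩
  haveI : IsCyclotomicExtension {11} ℚ (CyclotomicField 11 ℚ) :=
    CyclotomicField.isCyclotomicExtension 11 ℚ
  haveI : IsPrincipalIdealRing (NumberField.RingOfIntegers (CyclotomicField 11 ℚ)) :=
    Fermat.Agent.FLTReg.pid_eleven (CyclotomicField 11 ℚ)
  refine Fermat.Agent.FLTReg.fw_no_freyPackage (p := 11) (by norm_num) (by norm_num)
    (fun a b c hab h => Fermat.Agent.FLTReg.caseI_eleven hab h)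
    (fun a b c hab hc hpc => ?_) P hp
  exact Fermat.Agent.FLTReg.caseII (p := 11) (K := CyclotomicField 11 ℚ) (by norm_num)
    (fun u hu => Fermat.Agent.FLTReg.KD_kummer_eleven (CyclotomicField 11 ℚ) u hu) hab hc hpc

theorem result (P : FreyPackage) (hp : P.p = 11) : ¬ HasGaloisStableCofixedLine (K := AlgebraicClosure ℚ) ℚ P.freyCurve P.p := by
  exact (no_freyPackage_eleven P hp).elim

end Fermat.Agent.S11
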