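-- S14: ExtVanishingCts p for p ≥ 3 (captain helper22; see Fermat/Agent/S14x/).
import Fermat.Statements.S14
import Fermat.Agent.S14x.DictTower
import Fermat.Agent.S14x.NoTower

set_option autoImplicit false
open ExtCitation

namespace Fermat.Agent.S14

theorem result {p : ℕ} [Fact p.Prime] (h3 : 3 ≤ p) :
    ExtCitation.ExtVanishingCts p := by
  intro V _ _ _ _ C hadm
  by_contra hns
  obtain ⟨T⟩ := Fermat.Agent.S14x.dt_exists_tower h3 V C hadm hns
  exact Fermat.Agent.S14x.no_tower (by omega) T

end Fermat.Agent.S14
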