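-- Statement S23 (row 22): S₂(Γ₀(N)) has an integral structure.
-- Proof: the S23x project (Galois stability of q-expansions of Γ₀(N)-forms via the modular function
-- field ℂ(j, j_N), descent along Aut(ℂ), bounded denominators from the Hecke algebra = S22).
import Fermat.Statements.S23
import Fermat.Agent.S23x.FinalBridge
import Fermat.Agent.S23x.SigmaMF
import Fermat.Agent.S23x.SigmaCF
import Fermat.Agent.S23x.CuspCrit
import Fermat.Agent.S23x.LevelRaise

set_option autoImplicit false
open CuspForm

namespace Fermat.Agent.S23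

theorem result (N : ℕ) [NeZero N] : CuspForm.HasIntegralStructure N 2 :=
  Fermat.Agent.S23x.hasIntegralStructure_of_exists_isCF_sigP N (fun σ _ hf =>
    Fermat.Agent.S23x.exists_isCF_sigP_of N σ
      (fun hk' _ hf' => Fermat.Agent.S23x.exists_isMF_sigP N σ hk' hf')
      (fun hf' => Fermat.Agent.S23x.isCF_iff_pow_eq_discriminant_mul N hf')
      (Fermat.Agent.S23x.sigL_DeltaL σ) ⟨1, by norm_num⟩ hf)

end Fermat.Agent.S23
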