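-- Statement S20 (row 19): dim S_2(Gamma0(N)) = genusFormula N.
-- Proof: vector-valued modular forms on X = SL(2,Z)/Gamma0(N); free module theorem over C[E4,E6];
-- evaluation at i, rho, infinity; duality; see Fermat/Agent/S20x/.
import Fermat.Statements.S20
import Fermat.Agent.S20x.BridgeIso
import Fermat.Agent.S20x.Bridge
import Fermat.Agent.S20x.CountPsi
import Fermat.Agent.S20x.CountNu2
import Fermat.Agent.S20x.CountNu3
import Fermat.Agent.S20x.CountCusps
import Fermat.Agent.S20x.CountFinal

set_option autoImplicit false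
open CuspForm

namespace Fermat.Agent.S20

open Fermat.Agent.S20x in
theorem result (N : ℕ) [NeZero N] :
    (Module.finrank ℂ (CuspForm (CongruenceSubgroup.Gamma0 N) 2) : ℚ) = ModularCurve.genusFormula N := by
  obtain ⟨e⟩ := bridge N 2
  rw [e.finrank_eq, cf_finrank_Sk_two (goodX_Gamma0 N)]
  unfold genusX ModularCurve.genusFormula
  rw [card_X_Gamma0, nu2_Gamma0, nu3_Gamma0, cuspsX_Gamma0]

end Fermat.Agent.S20
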