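-- Statement S21 (Eichler–Shimura isomorphism for `periodHomPair`).
-- Proof: `Fermat.Agent.S21x.eichlerShimura_of` (injectivity by the maximum principle on
-- `Γ₀(N)\ℍ*`, range inside the parabolic homomorphisms, dimension bound for the parabolic
-- homomorphisms by the induced-cocycle (Shapiro) argument) + the S20 dimension formula + the
-- coset counts on `SL(2,ℤ) ⧸ Γ₀(N)` from `S24x/Comb*.lean`.
import Fermat.Statements.S21
import Fermat.Agent.S20
import Fermat.Agent.S21x.Assembly
import Fermat.Agent.S24x.CombIndex
import Fermat.Agent.S24x.CombFixed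
import Fermat.Agent.S24x.CombCusps

set_option autoImplicit false
open ModularCurve

namespace Fermat.Agent.S21

theorem result (N : ℕ) [NeZero N] :
    Function.Injective (ModularCurve.periodHomPair N)
      ∧ LinearMap.range (ModularCurve.periodHomPair N)
          = ModularCurve.Period.parabolicHoms ℂ (CongruenceSubgroup.Gamma0 N) ℂ :=
  Fermat.Agent.S21x.eichlerShimura_of N (Fermat.Agent.S20.result N)
    (Fermat.Agent.S24x.card_Q N) (Fermat.Agent.S24x.card_fixedBy_S N)
    (Fermat.Agent.S24x.card_fixedBy_ST N) (Fermat.Agent.S24x.card_orbits_T N)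

end Fermat.Agent.S21
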