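import Fermat.Statements.S16
import Fermat.Agent.S16x.FinalAsm
import Fermat.Agent.S16x.Upper
import Fermat.Agent.S16x.Duality
import Fermat.Agent.S16x.LowerAssembly

set_option autoImplicit false
open ModularCurve CuspForm
open ModularCurve

namespace Fermat.Agent.S16

theorem result
    (p : ℕ) [Fact p.Prime] :
    Nat.card (↥(heckeLatticeAlgebra p ∅) ⧸
        Ideal.map ((latticeRestrictHom p ∅).toRingHom.comp (heckeEvalForms p 2))
          (eisensteinIdeal p)) =
      eisensteinNumerator p :=
  Fermat.Agent.S16x.fin_card_lattice_quotient_eq p (Fermat.Agent.S16x.lower p)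
    (fun M hM h => by haveI : NeZero M := ⟨hM⟩; exact Fermat.Agent.S16x.exists_eisCongr p M h)
    (fun ℓ s hℓ g hg => by haveI := Fact.mk hℓ; exact Fermat.Agent.S16x.upper p ℓ s g hg)

end Fermat.Agent.S16
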