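import Fermat.Statements.S24
import Fermat.Agent.S24x.LayerAFinal
import Fermat.Agent.S24x.CountsOfInputs
import Fermat.Agent.S24x.FinalArith
import Fermat.Agent.S24x.GenusArith
import Fermat.Agent.S24x.Realize
import Fermat.Agent.S24x.VPt
import Fermat.Agent.S24x.JFiber
import Fermat.Agent.S24x.CgCusp
import Fermat.Agent.S24x.FBarFinite
import Fermat.Agent.S24x.CoveringFinal

set_option autoImplicit false
open ModularCurve

namespace Fermat.Agent.S24

open Fermat.Agent.S24x AlgebraicCurve

/-- all analytic inputs of the counting step -/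
noncomputable def cInputs (N : ℕ) [NeZero N] : CInputs N where
  evF := evF N
  vPt := vPt N
  vCusp := cg_vCusp N
  jFun_I := jFun_I
  jFun_rho := jFun_rho
  holOrder_jHol_sub_generic := holOrder_jHol_sub_generic
  holOrder_jHol_sub_I := holOrder_jHol_sub_I
  holOrder_jHol_rho := holOrder_jHol_rho
  evF_algebraMap := evF_algebraMap N
  evF_jBar := evF_jBar N
  evF_smul_of_mem_Gamma0 := evF_smul_of_mem_Gamma0 N
  exists_ordAt_eq_mul_vPt_ord := fun τ ⟨_, hc⟩ => exists_ordAt_eq_mul_vPt_ord N τ hc
  vPt_mem_placesOver := fun τ _ hτ => vPt_mem_placesOver N τ hτ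
  vPt_smul_of_mem_Gamma0 := vPt_smul_of_mem_Gamma0 N
  vCusp_mul_of_mem_Gamma0 := cg_vCusp_mul_of_mem_Gamma0 N
  vCusp_mul_T := cg_vCusp_mul_T N
  vCusp_ord_le := cg_vCusp_ord_le N
  vCusp_mem_polePlaces := cg_vCusp_mem_polePlaces N
  covering_finite := covering_finite N
  covering_cusp := covering_cusp N
  dedekindPsi_le_cdeg := fbf_dedekindPsi_le_cdeg N
  sum_ord_placesOver := fun c => sum_ord_placesOver (fbf_isCoordinate_jBar N) c
  sum_ord_polePlaces := sum_ord_polePlaces (fbf_isCoordinate_jBar N)

theorem result (N : ℕ) [NeZero N]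
    [AlgebraicCurve.HasCanonicalDivisor (K := AlgebraicClosure ℚ) (F := ↥(ModularCurve.modularFunctionFieldBar N))] :
    (AlgebraicCurve.genus (AlgebraicClosure ℚ) ↥(ModularCurve.modularFunctionFieldBar N) : ℚ)
      = ModularCurve.genusFormula N := by
  classical
  have A := cInputs N
  have hn : cdeg Qbar (FBar N) (jBar N) = dedekindPsi N := A.cdeg_jBar
  have hg := la_genus_eq (K := Qbar) (F := FBar N) (jBar N) (fbf_isCoordinate_jBar N)
    ({0, 1728} : Finset Qbar)
    (by
      intro c hc
      rw [hn]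
      simp only [Finset.mem_insert, Finset.mem_singleton, not_or] at hc
      exact A.ncard_placesOver_generic c hc.1 hc.2)
  have hne : (0 : Qbar) ≠ 1728 := by norm_num
  rw [Finset.sum_pair hne, hn] at hg
  have hg' : AlgebraicCurve.genus (AlgebraicClosure ℚ) ↥(ModularCurve.modularFunctionFieldBar N)
      = _ := hg
  rw [hg']
  exact fa_genus_arith N _ _ _ (ga_genus_nat N) A.ncard_placesOver_1728
    A.ncard_placesOver_zero A.ncard_polePlaces

end Fermat.Agent.S24
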