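-- Statement S18 (row 17): prime-to-ℓ torsion of J₀(N) injects under reduction mod ℓ, ℓ ∤ N.
-- The statement below is byte-identical to the frozen statement ModularCurve.FermatFrozen.S18.
-- Proof: `s18f_result` (S18x/AssemblyFinal: Gauss pair, Riemann on both fibres, torsion step)
-- applied to the two-chart normality `nrmf_normality` (S18x/NrmFinal).
import Fermat.Statements.S18
import Fermat.Agent.S18x.AssemblyFinal
import Fermat.Agent.S18x.NrmFinal

set_option autoImplicit false
open ModularCurve

namespace Fermat.Agent.S18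

theorem result (N : ℕ) [NeZero N] {ℓ : ℕ}
    [Fact ℓ.Prime] (hℓN : ¬ ℓ ∣ N) (A : ValuationSubring (AlgebraicClosure ℚ)) (hA : A.LiesOverPrime ℓ)
    (h : ModularCurve.ReductionInputsModL A N) (m : ℕ) (hm : ¬ ℓ ∣ m) (z : ModularCurve.JZero N)
    (hmz : m • z = 0) (hz : ModularCurve.reductionModL A N z = 0) :
    z = 0 :=
  Fermat.Agent.S18x.s18f_result N A h hℓN hA
    (Fermat.Agent.S18x.nrmf_normality N A h hℓN hA) m hm z hmz hz

end Fermat.Agent.S18
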