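import Fermat.Statements.S22
import Fermat.Agent.S22x.FinalAlgebra
import Fermat.Agent.S22x.TrivialWeights
import Fermat.Agent.S22x.Lattice
import Fermat.Agent.S22x.LatticeFG

set_option autoImplicit false
open CuspForm

namespace Fermat.Agent.S22

theorem result (N : ℕ) [NeZero N] (k : ℤ) (S : Set ℕ) :
    Module.Finite ℤ (CuspForm.heckeAlgebra N k S) := by
  by_cases hk : k ≤ 0 ∨ Odd k
  · exact Fermat.Agent.S22x.moduleFinite_heckeAlgebra_of_nonpos_or_odd N k S hk
  · rw [not_or, not_le] at hk
    obtain ⟨n, rfl⟩ : ∃ n : ℕ, k = (n : ℤ) + 2 := by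
      refine ⟨(k - 2).toNat, ?_⟩
      have h2 : 2 ≤ k := by
        rcases hk with ⟨h0, hodd⟩
        by_contra hlt
        have : k = 1 := by omega
        exact hodd (this ▸ odd_one)
      omega
    exact Fermat.Agent.S22x.finite_heckeAlgebra_of_lattice N ((n : ℤ) + 2) S
      (Fermat.Agent.S22x.periodLattice N n)
      (Fermat.Agent.S22x.periodLattice_fg N n)
      (Fermat.Agent.S22x.periodLattice_sep N n)
      (Fermat.Agent.S22x.periodLattice_stable N n S)

end Fermat.Agent.S22
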