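-- Statement S28 (row 27): Igusa — the base change of the Igusa model of X₀(N) over ℤ_(ℓ) (ℓ ∤ N)
-- to any field of characteristic ℓ is integral.
-- Proof (team, captain helper94): units route `Fermat.Agent.S28x.UnitsMain` (every element of
-- `F_N ∩ W` is integral over the Gauss valuation ring of `ℚ(j)`), chart descent `ChartQEPu`,
-- tensor step `ChartTensorCore`, scheme glue `GlueFibre`.
import Fermat.Statements.S28
import Fermat.Agent.S28x.UnitsMain
import Fermat.Agent.S28x.ChartQEPu
import Fermat.Agent.S28x.ChartTensorCore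
import Fermat.Agent.S28x.GlueFibre

set_option autoImplicit false
open AlgebraicGeometry CategoryTheory CategoryTheory.Limits ModularCurve ModularCurve.IgusaScheme
noncomputable section
set_option autoImplicit false
open ModularCurve ModularCurve.IgusaScheme

namespace Fermat.Agent.S28

set_option maxHeartbeats 4000000 in
set_option synthInstance.maxHeartbeats 400000 in
theorem result
    (N : ℕ) [NeZero N] (ℓ : ℕ) [Fact ℓ.Prime] (hℓN : ¬ ℓ ∣ N)
    (K : Type) [Field K] [CharP K ℓ] [Algebra ↥(GaloisRep.ratLocalizedAt ℓ) K] :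
    IsIntegral ↑(pullback (igusaTo N ℓ)
      (Spec.map (CommRingCat.ofHom (algebraMap ↥(GaloisRep.ratLocalizedAt ℓ) K)))) := by
  have hV := Fermat.Agent.S28x.umain_isIntegral_gaussV N ℓ hℓN
  have hdom : ∀ S : Set ↥(modularFunctionFieldFull N), S ⊆ {jFull N, (jFull N)⁻¹} →
      IsDomain (TensorProduct ↥(GaloisRep.ratLocalizedAt ℓ) (chartAlg N ℓ S) K) := fun S hS =>
    Fermat.Agent.S28x.tp_chart_tensor_isDomain_of N ℓ S
      (Fermat.Agent.S28x.chu_mem_gaussRing N ℓ S hS)
      (Fermat.Agent.S28x.chu_qep N ℓ hV S hS) K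
  have h1 : IsDomain (TensorProduct ↥(GaloisRep.ratLocalizedAt ℓ) (chartAlgFin N ℓ) K) :=
    hdom {jFull N} (sFin_subset N)
  have h2 : IsDomain (TensorProduct ↥(GaloisRep.ratLocalizedAt ℓ) (chartAlgInf N ℓ) K) :=
    hdom {(jFull N)⁻¹} (sInf_subset N)
  have h3 : Nontrivial (TensorProduct ↥(GaloisRep.ratLocalizedAt ℓ) (chartAlgMid N ℓ) K) :=
    (hdom {jFull N, (jFull N)⁻¹} subset_rfl).toNontrivial
  exact Fermat.Agent.S28x.glue_igusa_pullback N ℓ K

end Fermat.Agent.S28
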