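-- Statement S29 (row 28): mod-p Galois representations attached to weight-2 eigenforms, every prime p.
-- Assembly: lower half for an arbitrary modulus (`tlap90_iotaPkg`, S42x/TopLowAllP90)
--   → upper half for an arbitrary prime (`fug61_s29c_input`, S42x/FinUpperGen61)
--   → `s29c_core_of_input` (S42x/S29Core) → `s29p_result_of_core` (S42x/S29Pack).
import Fermat.Statements.S29
import Fermat.Agent.S42x.S29Pack
import Fermat.Agent.S42x.S29Core
import Fermat.Agent.S42x.FinUpperGen61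
import Fermat.Agent.S42x.TopLowAllP90

set_option autoImplicit false
open CuspForm CuspForm.IsNormalizedEigenform

namespace Fermat.Agent.S29

theorem result
    {N : ℕ} {g : CuspForm (CongruenceSubgroup.Gamma0 N) 2} (hg : g.IsNormalizedEigenform)
    {p : ℕ} (hp : p.Prime) {k : Type} [Field k] [CharP k p]
    (φ : integralClosure ℤ ℂ →+* k) :
    ∃ ρ : ResidualGaloisRep k, ρ.IsAttachedTo g φ ∧
      ∀ ℓ : ℕ, ℓ.Prime → ¬ ℓ ∣ N * p → ρ.IsUnramifiedAt ℓ := by
  refine Fermat.Agent.S42x.s29p_result_of_core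
    (Fermat.Agent.S42x.s29c_core_of_input (Fermat.Agent.S42x.fug61_s29c_input ?_)) hg hp φ
  intro M _ p hpf
  obtain ⟨ι, h1, h2, h3⟩ := Fermat.Agent.S42x.tlap90_iotaPkg M p hpf.out.pos
  exact ⟨ι, h1, h2, fun ℓ hℓ _ v => h3 ℓ hℓ v⟩

end Fermat.Agent.S29
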