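import Fermat.Statements.S37
import Fermat.Agent.S18
import Fermat.Agent.S37x.S37Final
import Fermat.Agent.S37x.CtmHRClosed

set_option autoImplicit false
open ModularCurve

namespace Fermat.Agent.S37

open Fermat.Agent.S37x in
theorem result (N p : ℕ) [NeZero N] (hcomm : ModularCurve.HeckeOperatorsCommuteBar N) : letI := ModularCurve.heckeModuleBar N; ∀ (_ : SMulCommClass (AlgebraicClosure ℚ ≃ₐ[ℚ] AlgebraicClosure ℚ) ModularCurve.HeckeAlg (ModularCurve.JZero N)), ModularCurve.SpecializationExists (K := ℚ) (L := AlgebraicClosure ℚ) N p (ModularCurve.JZero N) :=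
  s37f_result_of_tops N
    (fun A hA h29 => cthf_HY_two N A hA h29)
    (fun ℓ _ hl A hA h4 => cthf_HY_odd ℓ hl N A hA h4)
    p
    (fun {ℓ} _ hℓN A hA h m hm z hmz hz => Fermat.Agent.S18.result N hℓN A hA h m hm z hmz hz)
    hcomm

end Fermat.Agent.S37
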