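-- Statement S41 (level raising, Ribet).  Proof = composition of the three TOP steps of the S41 project
-- (Fermat/Agent/S41x): STEP 1-2 `emq_top_step12` (the eigensystem of `f` occurs mod `p` in the lattice
-- `H¹_par(Γ₀(N), ℤ)`, with `T_{q'} ≡ ±(q'+1)`), STEP 3 `ts3_top_step3` (abstract Ribet lemma `rba_main_perfect`
-- from Ihara's lemma `tih55_hIhara` [amalgam + Hecke-eigenvector bypass of the congruence subgroup property +
-- bridge prime] and Poincaré duality `pdPair_package`), STEP 4-5 `tpo_step45` (Deligne–Serre lifting on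
-- `ker β`, `U_{q'}² = 1` there, Eichler–Shimura back to forms).
import Fermat.Statements.S41
import Fermat.Agent.S41x.EigenLRVec
import Fermat.Agent.S41x.TopStep3
import Fermat.Agent.S41x.TopOutFinal
import Fermat.Agent.S41x.TopIhara55
import Fermat.Agent.S41x.DualFinal

set_option autoImplicit false
open WeierstrassCurve WeierstrassCurve.Affine WeierstrassCurve.Affine.Point
open scoped CongruenceSubgroup
open WeierstrassCurve

namespace Fermat.Agent.S41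

open Fermat.Agent.S41x in
theorem result
    (E : WeierstrassCurve ℚ) [E.IsElliptic] {W : WeierstrassCurve ℤ} (hW : W.IsIntegralModelOf E)
    {p N q' : ℕ} (hp : p.Prime) (hp2 : p ≠ 2) (hN : 0 < N) (hq' : q'.Prime) (hq'N : ¬ q' ∣ N) (hq'p : q' ≠ p)
    (hirr : GaloisRepIsIrreducible (K := AlgebraicClosure ℚ) ℚ E p)
    (f : CuspForm (CongruenceSubgroup.Gamma0 N) 2) (𝔪 : Ideal (integralClosure ℤ ℂ))
    (hf : f.IsNormalizedEigenform) (hmax : 𝔪.IsMaximal) (hpm : (p : integralClosure ℤ ℂ) ∈ 𝔪)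
    (hcong : ∀ ℓ : ℕ, ℓ.Prime → W.IsGoodPrimeFor ℓ → ¬ ℓ ∣ N → ℓ ≠ p →
      ∃ a : integralClosure ℤ ℂ, (a : ℂ) = ModularFormClass.qCoeff f ℓ ∧
        a - ((W.apOfModel ℓ : ℤ) : integralClosure ℤ ℂ) ∈ 𝔪)
    (hLR : ∃ a : integralClosure ℤ ℂ, (a : ℂ) = ModularFormClass.qCoeff f q' ∧
      a ^ 2 - ((q' : integralClosure ℤ ℂ) + 1) ^ 2 ∈ 𝔪) :
    ∃ (g : CuspForm (CongruenceSubgroup.Gamma0 (N * q')) 2) (𝔪' : Ideal (integralClosure ℤ ℂ)),
      g.IsNormalizedEigenform ∧ 𝔪'.IsMaximal ∧ (p : integralClosure ℤ ℂ) ∈ 𝔪' ∧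
      (∀ ℓ : ℕ, ℓ.Prime → W.IsGoodPrimeFor ℓ → ¬ ℓ ∣ N * q' → ℓ ≠ p →
        ∃ a : integralClosure ℤ ℂ, (a : ℂ) = ModularFormClass.qCoeff g ℓ ∧
          a - ((W.apOfModel ℓ : ℤ) : integralClosure ℤ ℂ) ∈ 𝔪') ∧
      g.IsNewAt q' := by
  haveI : NeZero N := ⟨hN.ne'⟩
  haveI : Fact q'.Prime := ⟨hq'⟩
  obtain ⟨ε, v, hε, hv, hvT, hvq⟩ :=
    emq_top_step12 (W := W) (q := q') hp f 𝔪 hf hmax hpm hcong hLR
  obtain ⟨y, hy1, hy2, hy, hyT⟩ :=
    ts3_top_step3 (W := W) hp hq'N (fun M _ => pdPair M) pdPair_package.1 pdPair_package.2.1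
      pdPair_package.2.2.1 pdPair_package.2.2.2
      (fun x₁ x₂ h₁ h₂ hα => tih55_hIhara E hW hp hp2 hq'N hirr x₁ x₂ h₁ h₂ hα)
      ε v hε hv hvT hvq
  exact tpo_step45 (W := W) hp hq'N y hy1 hy2 hy hyT

end Fermat.Agent.S41
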