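import Fermat.Statements.S42
import Fermat.Agent.S42x.TopLow92
import Fermat.Agent.S42x.FinUpper61

set_option autoImplicit false
open FreyPackage

namespace Fermat.Agent.S42

/-- Lower half (`low92_iotaPkg`, helper92: the comparison map `ι : H¹_par(Γ₀(M), ℤ) → J₀(M)[p]`, kernel
`p • L`, Hecke-equivariant; blocks B1–B5, B7 of the S42 project) + upper half (`fup61_upper`, helper61:
Betti eigenvector, Eichler–Shimura on its Galois orbit, cyclic Frobenius density, two-dimensional
quotient; blocks B6, B8–B11). -/
theorem result (P : FreyPackage) :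
    ∀ M : ℕ, 0 < M → P.EigenformResidualAttachmentAt M := by
  intro M hM
  haveI : NeZero M := ⟨hM.ne'⟩
  obtain ⟨ι, htors, hker, hequiv⟩ := Fermat.Agent.S42x.low92_iotaPkg M P.p P.pp P.hp5
  exact Fermat.Agent.S42x.fup61_upper P M hM ι htors hker (fun ℓ hℓ _ => hequiv ℓ hℓ)

end Fermat.Agent.S42
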