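-- S49: Deligne-Serre lifting lemma (helper41; pieces by helper65/helper72 in S49x/EigenToNormalized, FormalRecursive).
import Fermat.Statements.S49
import Fermat.Agent.S49x.EigenLift
import Fermat.Agent.S49x.HeckeFinite
import Fermat.Agent.S49x.EigenToNormalized
import Fermat.Agent.S49x.ResidualPrime

set_option autoImplicit false
open CuspForm EisensteinWeightOne CongruenceSubgroup ModularFormClass
open FLT FLT.AbstractIntegralStructure

namespace Fermat.Agent.S49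

open Fermat.Agent.S49x in
theorem result
    {N : ℕ} [NeZero N] (h : CuspForm.HasIntegralBasis N) {a : ℕ → ℤ}
    (heig : FormalHecke.IsEigensystem
      (fun ℓ => if ℓ ∣ N then 0 else ((chiNegThree ℓ : ℤ) : ℤ)) a)
    (hreal : CuspForm.IsLatticeRealized N a) :
    ∃ (f : CuspForm (Gamma0 N) 2) (_ : f.IsNormalizedEigenform)
      (𝔪' : Ideal (integralClosure ℤ ℂ)), 𝔪'.IsMaximal ∧
      ((3 : ℕ) : integralClosure ℤ ℂ) ∈ 𝔪' ∧
      ∀ (ℓ : ℕ) (_ : ℓ.Prime) (_ : ¬ ℓ ∣ N),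
        ∃ c : integralClosure ℤ ℂ, (c : ℂ) = ModularFormClass.qCoeff f ℓ ∧
          c - (a ℓ : integralClosure ℤ ℂ) ∈ 𝔪' := by
  classical
  obtain ⟨D⟩ := RealData.nonempty_of_isLatticeRealized hreal
  -- the Hecke algebra is finite over ℤ
  have hfin0 : Module.Finite ℤ (CuspForm.heckeAlgebra N 2 (∅ : Set ℕ)) :=
    heckeAlgebra_finite_of_hasIntegralBasis h ∅
  have hfin : Module.Finite ℤ (CuspForm.heckeAlgebra N 2 (∅ : Set ℕ)) := by
    rw [Module.Finite.iff_addGroup_fg] at hfin0 ⊢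
    exact hfin0
  have hprime : D.residualIdeal.IsPrime := D.residualIdeal_isPrime heig
  let ρ : CuspForm.heckeAlgebra N 2 (∅ : Set ℕ) →+* Module.End ℂ (CuspForm (Gamma0 N) 2) :=
    (CuspForm.heckeAlgebra N 2 (∅ : Set ℕ)).val.toRingHom
  have hρ : Function.Injective ρ := Subtype.val_injective
  obtain ⟨v, ψ, 𝔪', hv0, hv, hmax, hle⟩ := exists_eigen_lift ρ hρ D.residualIdeal
  -- eigenvalues
  let lam : ℕ → ℂ := fun ℓ =>
    if hℓ : ℓ.Prime then
      if hℓN : ℓ ∣ N then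
        ((ψ (CuspForm.heckeAlgebra.U hℓ hℓN (Set.notMem_empty ℓ)) : integralClosure ℤ ℂ) : ℂ)
      else ((ψ (CuspForm.heckeAlgebra.T hℓ hℓN (Set.notMem_empty ℓ)) : integralClosure ℤ ℂ) : ℂ)
    else 0
  have hT : ∀ (ℓ : ℕ) (hℓ : ℓ.Prime) (hℓN : ¬ ℓ ∣ N),
      CuspForm.heckeTLin 2 hℓ hℓN v = lam ℓ • v := by
    intro ℓ hℓ hℓN
    have := hv (CuspForm.heckeAlgebra.T hℓ hℓN (Set.notMem_empty ℓ))
    simp only [lam, dif_pos hℓ, dif_neg hℓN]
    exact this
  have hU : ∀ (q : ℕ) (_ : q.Prime) (hqN : q ∣ N),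
      CuspForm.heckeULin 2 hqN v = lam q • v := by
    intro q hq hqN
    have := hv (CuspForm.heckeAlgebra.U hq hqN (Set.notMem_empty q))
    simp only [lam, dif_pos hq, dif_pos hqN]
    exact this
  obtain ⟨-, hnorm, hlam⟩ := normalized_of_eigen v hv0 lam hT hU
  refine ⟨(qCoeff v 1)⁻¹ • v, hnorm, 𝔪', hmax, ?_, ?_⟩
  · -- 3 ∈ 𝔪'
    have h3 : (3 : CuspForm.heckeAlgebra N 2 (∅ : Set ℕ)) ∈ D.residualIdeal := by
      refine ⟨D.F, D.F_mem, ?_⟩
      show ((3 : Module.End ℂ (CuspForm (Gamma0 N) 2))) D.F = _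
      rw [Module.End.ofNat_apply, ← Nat.cast_smul_eq_nsmul ℂ]
      norm_num
    have := hle h3
    rw [Ideal.mem_comap, map_ofNat] at this
    exact_mod_cast this
  · intro ℓ hℓ hℓN
    refine ⟨ψ (CuspForm.heckeAlgebra.T hℓ hℓN (Set.notMem_empty ℓ)), ?_, ?_⟩
    · rw [hlam ℓ hℓ]
      simp only [lam, dif_pos hℓ, dif_neg hℓN]
    · have hmem : CuspForm.heckeAlgebra.T hℓ hℓN (Set.notMem_empty ℓ) -
          (a ℓ : CuspForm.heckeAlgebra N 2 (∅ : Set ℕ)) ∈ D.residualIdeal := by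
        obtain ⟨y, hy, hy'⟩ := D.heckeT_sub_mem heig hℓ hℓN
        refine ⟨y, hy, ?_⟩
        rw [← hy']
        show ((CuspForm.heckeTLin 2 hℓ hℓN : Module.End ℂ (CuspForm (Gamma0 N) 2)) -
          ((a ℓ : CuspForm.heckeAlgebra N 2 (∅ : Set ℕ)) :
            Module.End ℂ (CuspForm (Gamma0 N) 2))) D.F = _
        rw [LinearMap.sub_apply]
        congr 1
        have : ((a ℓ : CuspForm.heckeAlgebra N 2 (∅ : Set ℕ)) :
            Module.End ℂ (CuspForm (Gamma0 N) 2)) = (a ℓ : ℤ) • 1 := by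
          simp
        rw [this, LinearMap.smul_apply, Module.End.one_apply, Int.cast_smul_eq_zsmul]
      have := hle hmem
      rw [Ideal.mem_comap, map_sub, map_intCast] at this
      exact this

end Fermat.Agent.S49
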