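-- Statement S51: a semistable elliptic curve over ℚ has irreducible mod 3 or mod 5 representation.
-- Elementary route: reducible at 3 and 5 gives a rational point on X₀(15) = 15a1 (rank 0), whose
-- four non-cuspidal points have j-invariants that are not semistable at 5.
import Fermat.Statements.S51
import Fermat.Agent.S51x.Final
import Fermat.Agent.S51x.FinalPts
import Fermat.Agent.S51x.H52.I3
import Fermat.Agent.S51x.Red5

set_option autoImplicit false
open WeierstrassCurve WeierstrassCurve.Affine WeierstrassCurve.Affine.Point
open CuspForm ModularFormClass UpperHalfPlane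
open WeierstrassCurve

namespace Fermat.Agent.S51

theorem result (W : WeierstrassCurve ℤ) (hΔ : W.Δ ≠ 0) (hW : W.IsSemistableModel) : W.ModRepIsIrreducible 3 ∨ W.ModRepIsIrreducible 5 :=
  Fermat.Agent.S51x.fin_s51_of_z
    (fun W' hΔ' _ h3 => Fermat.Agent.S51x.H52.i3_holds W' hΔ' h3)
    (Fermat.Agent.S51x.fin_I5z_of_I5j
      (fun E _ hj0 hj h5 => Fermat.Agent.S51x.exists_t_of_reducible_five E hj0 hj h5))
    Fermat.Agent.S51x.finpts_rational_points_15a W hΔ hW

end Fermat.Agent.S51
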