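-- Statement S53: existence of the universal deformation ring (Mazur, Ramakrishna),
-- via the trace-based (Carayol) construction assembled in `Fermat/Agent/S53x/`.
import Fermat.Statements.S53
import Fermat.Agent.S53x.Universal4
import Fermat.Agent.S53x.Tangent
import Fermat.Agent.S53x.CNLUniversal
import Fermat.Agent.S53x.AdmissibleConj
import Fermat.Agent.S53x.AdmissibleWit

set_option autoImplicit false
set_option autoImplicit false
open GaloisRep

namespace Fermat.Agent.S53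

open Fermat.Agent.S53x in
theorem result
    (𝒪 : Type) [CommRing 𝒪] [IsDomain 𝒪] [IsDiscreteValuationRing 𝒪]
    [IsAdicComplete (IsLocalRing.maximalIdeal 𝒪) 𝒪] [Finite (IsLocalRing.ResidueField 𝒪)]
    (ρbar : ResidualGaloisRep (IsLocalRing.ResidueField 𝒪))
    (𝒟 : ∀ ⦃A : Type⦄ [CommRing A] [IsLocalRing A] [Algebra 𝒪 A], GaloisRepAdic A → Prop)
    (habs : ρbar.IsAbsolutelyIrreducible)
    (h𝒟 : GaloisRep.IsDeformationCondition 𝒪 𝒟)
    (hbar : 𝒟 (GaloisRepAdic.ofResidualGaloisRep ρbar))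
    (hfin : GaloisRep.TangentFinite 𝒪 ρbar 𝒟) :
    Nonempty (GaloisRep.DeformationRingData 𝒪 ρbar 𝒟) := by
  classical
  have hgram : HasUnitGram (resMat ρbar (resStdBasis ρbar)) :=
    hasUnitGram_of_isAbsolutelyIrreducible ρbar habs (resStdBasis ρbar)
  have hrbar : FinLevelMod (resMat ρbar (resStdBasis ρbar)) ⊥ :=
    finLevelMod_resMat ρbar (resStdBasis ρbar)
  have hkTest : IsArtinianTestAlgebra 𝒪 (IsLocalRing.ResidueField 𝒪) :=
    ar_residueField_isArtinianTestAlgebra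
  have hbar' : 𝒟 (ofMat (resMat ρbar (resStdBasis ρbar)) (adicCont_of_finLevelMod_bot hrbar)) :=
    h𝒟.of_isEquiv hkTest (ofResidualGaloisRep_isEquiv_ofMat ρbar (resStdBasis ρbar)) hbar
  obtain ⟨G, hK1⟩ := exists_genData_hasK1 ρbar (resStdBasis ρbar) habs h𝒟 hfin
  have hB3 : G.HasB3 𝒟 := adm_witness_conj 𝒟 G h𝒟 hgram hK1
  have hB4 : G.HasB4 𝒟 := adm_of_dlift 𝒟 G h𝒟 hgram hK1
  obtain ⟨Jn, T⟩ := G.exists_tower h𝒟 hB4 hrbar hbar'
  have hT := T.isTower
  haveI := hT.isLocalRing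
  haveI := hT.isLocalHom_algebraMap
  haveI : IsNoetherianRing (G.S ⧸ ⨅ m, Jn m) := GenData.IsTower.isNoetherianRing
  haveI := hT.isAdicComplete
  obtain ⟨ru, hU, hUA⟩ := T.exists_universal h𝒟 hB3 hB4
  exact ⟨{
    R := G.S ⧸ ⨅ m, Jn m
    residue_surjective := GenData.IsTower.residue_surjective
    absIrr := habs
    ρ := ofMat ru hU.cont
    isOfType := hU.isD
    residual_isEquiv :=
      residual_isEquiv_of_strict_of_residual ρbar (resStdBasis ρbar) _ ru hU.cont hU.strict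
    universal := cnl_universal h𝒟 hrbar hgram ρbar
      (isEquiv_resOfMat_resMat ρbar (resStdBasis ρbar)) ru hU.cont hUA }⟩

end Fermat.Agent.S53
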