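-- Statement S57 (row 51): patching, descent step.
import Fermat.Statements.S57
import Fermat.Agent.S57x.RegSeq
import Fermat.Agent.S57x.FreeOfRegular
import Fermat.Agent.S57x.FiniteLengthQuot
import Fermat.Agent.S57x.Wiring

set_option autoImplicit false
open Algebra Algebra.PatchingLevel

namespace Fermat.Agent.S57

theorem result
    {𝒪 : Type} [CommRing 𝒪] [IsDomain 𝒪] [IsDiscreteValuationRing 𝒪]
    {r : ℕ} {R : Type} [CommRing R] [Algebra 𝒪 R]
    {M : Type} [AddCommGroup M] [Module R M] [Nontrivial M]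
    (L : Algebra.PatchingLevel 𝒪 r R M ⊥) :
    Module.Free R M ∧ Module.annihilator R M = ⊥ ∧
      RingHom.ker L.ψ = Ideal.span (Set.range fun i : Fin r => L.φ (MvPowerSeries.X i)) := by
  open Fermat.Agent.S57x in
  classical
  -- a uniformizer of `𝒪`
  obtain ⟨ϖ, hϖ⟩ := IsDiscreteValuationRing.exists_irreducible 𝒪
  have hmaxO : IsLocalRing.maximalIdeal 𝒪 = Ideal.span {ϖ} := hϖ.maximalIdeal_eq
  have hϖ0 : ϖ ≠ 0 := hϖ.ne_zero
  have hreg : IsSMulRegular 𝒪 ϖ := by
    intro a b hab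
    exact mul_left_cancel₀ hϖ0 hab
  have hϖmem : ϖ ∈ IsLocalRing.maximalIdeal 𝒪 := by
    rw [hmaxO]; exact Ideal.subset_span rfl
  have : Module.Finite (MvPowerSeries (Fin r) 𝒪) L.N := regSeq_finite_N L
  -- the parameter sequence and its image under `φ`
  set xs := paramList (A := 𝒪) r ϖ with hxs
  set ys := xs.map L.φ with hys
  have h1 : RingTheory.Sequence.IsRegular (MvPowerSeries (Fin r) 𝒪) xs :=
    isRegular_paramList hreg hmaxO
  have h2 : Ideal.ofList xs = IsLocalRing.maximalIdeal (MvPowerSeries (Fin r) 𝒪) :=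
    ofList_paramList_eq_maximalIdeal hmaxO
  have h3 : RingTheory.Sequence.IsWeaklyRegular L.N ys := isWeaklyRegular_map_φ L h1.toIsWeaklyRegular
  have h4 : ∀ y ∈ ys, y ∈ IsLocalRing.maximalIdeal (MvPowerSeries (Fin r) 𝒪) :=
    map_φ_paramList_mem_maximalIdeal L hϖmem
  have h5 : xs.length ≤ ys.length := by simp [hys]
  have hmaxI : (Ideal.span {ϖ}).IsMaximal := hmaxO ▸ IsLocalRing.maximalIdeal.isMaximal 𝒪
  have h6 : IsFiniteLength (MvPowerSeries (Fin r) 𝒪)
      (L.N ⧸ Ideal.ofList ys • (⊤ : Submodule (MvPowerSeries (Fin r) 𝒪) L.N)) := by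
    refine isFiniteLength_quot L ϖ hmaxI (Ideal.ofList ys) ?_ ?_
    · refine Ideal.subset_span ?_
      show MvPowerSeries.C ϖ ∈ ys
      rw [hys, List.mem_map]
      refine ⟨MvPowerSeries.C ϖ, ?_, regSeq_φ_C L ϖ⟩
      simp [hxs, paramList]
    · intro i
      refine Ideal.subset_span ?_
      show L.φ (MvPowerSeries.X i) ∈ ys
      rw [hys, List.mem_map]
      refine ⟨MvPowerSeries.X i, ?_, rfl⟩
      simp [hxs, paramList]
  have hfree : Module.Free (MvPowerSeries (Fin r) 𝒪) L.N :=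
    free_of_isWeaklyRegular_of_isFiniteLength xs h1 h2 L.N ys h3 h4 h5 h6
  exact wiring_of_free L hfree

end Fermat.Agent.S57
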